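import Fermat.Agent.ML.ECal.Chart

/-!
# ML / ESide / Flat / AddLaw : the complete addition law computes `P + Q` in the chart
-/

set_option autoImplicit false

open WeierstrassCurve WeierstrassCurve.Affine WeierstrassCurve.Affine.Point
open Fermat.Agent.S05

namespace Fermat.Agent.ML.ECal

variable {F : Type*} [Field F] {W : WeierstrassCurve.Affine F}

/-- the denominator of the addition law. -/
def NN (P Q : W.Point) : F := SY W.b₂ W.b₄ W.b₆ (al P) 1 (be P) (al Q) 1 (be Q)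

/-- the numerators. -/
def NX (P Q : W.Point) : F := SX W.b₂ W.b₄ W.b₆ (al P) 1 (be P) (al Q) 1 (be Q)
def NZ (P Q : W.Point) : F := SZ W.b₂ W.b₄ W.b₆ (al P) 1 (be P) (al Q) 1 (be Q)

theorem NN_zero_left (Q : W.Point) : NN 0 Q = 1 := by
  simp [NN, SY_zero_left]

theorem NN_zero_right (P : W.Point) : NN P 0 = 1 := by
  simp [NN, SY_zero_right]

theorem NN_neg_right (P Q : W.Point) : NN P (-Q) = NN P Q := by
  simp only [NN, al_neg, be_neg, SY_neg_right]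

/-- the chord case, in coordinates (`l` = the slope). -/
theorem law_chord (h2 : (2 : F) ≠ 0) {x1 y1 x2 y2 l : F}
    (e1 : (2 * y1 + W.a₁ * x1 + W.a₃) ^ 2 = 4 * x1 ^ 3 + W.b₂ * x1 ^ 2 + 2 * W.b₄ * x1 + W.b₆)
    (e2 : (2 * y2 + W.a₁ * x2 + W.a₃) ^ 2 = 4 * x2 ^ 3 + W.b₂ * x2 ^ 2 + 2 * W.b₄ * x2 + W.b₆)
    (hs1 : 2 * y1 + W.a₁ * x1 + W.a₃ ≠ 0) (hs2 : 2 * y2 + W.a₁ * x2 + W.a₃ ≠ 0)
    (hs3 : 2 * W.addY x1 x2 y1 l + W.a₁ * W.addX x1 x2 l + W.a₃ ≠ 0)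
    (hx : x1 ≠ x2) (hl : l * (x1 - x2) = y1 - y2) :
    W.addX x1 x2 l / (2 * W.addY x1 x2 y1 l + W.a₁ * W.addX x1 x2 l + W.a₃) *
        SY W.b₂ W.b₄ W.b₆ (x1 / (2 * y1 + W.a₁ * x1 + W.a₃)) 1 (1 / (2 * y1 + W.a₁ * x1 + W.a₃))
          (x2 / (2 * y2 + W.a₁ * x2 + W.a₃)) 1 (1 / (2 * y2 + W.a₁ * x2 + W.a₃))
      = SX W.b₂ W.b₄ W.b₆ (x1 / (2 * y1 + W.a₁ * x1 + W.a₃)) 1 (1 / (2 * y1 + W.a₁ * x1 + W.a₃))
          (x2 / (2 * y2 + W.a₁ * x2 + W.a₃)) 1 (1 / (2 * y2 + W.a₁ * x2 + W.a₃)) ∧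
    1 / (2 * W.addY x1 x2 y1 l + W.a₁ * W.addX x1 x2 l + W.a₃) *
        SY W.b₂ W.b₄ W.b₆ (x1 / (2 * y1 + W.a₁ * x1 + W.a₃)) 1 (1 / (2 * y1 + W.a₁ * x1 + W.a₃))
          (x2 / (2 * y2 + W.a₁ * x2 + W.a₃)) 1 (1 / (2 * y2 + W.a₁ * x2 + W.a₃))
      = SZ W.b₂ W.b₄ W.b₆ (x1 / (2 * y1 + W.a₁ * x1 + W.a₃)) 1 (1 / (2 * y1 + W.a₁ * x1 + W.a₃))
          (x2 / (2 * y2 + W.a₁ * x2 + W.a₃)) 1 (1 / (2 * y2 + W.a₁ * x2 + W.a₃)) := by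
  have hd : x1 - x2 ≠ 0 := sub_ne_zero.2 hx
  obtain ⟨s1, hs1d⟩ : ∃ s, s = 2 * y1 + W.a₁ * x1 + W.a₃ := ⟨_, rfl⟩
  obtain ⟨s2, hs2d⟩ : ∃ s, s = 2 * y2 + W.a₁ * x2 + W.a₃ := ⟨_, rfl⟩
  obtain ⟨x3, hx3⟩ : ∃ x, x = W.addX x1 x2 l := ⟨_, rfl⟩
  obtain ⟨s3, hs3d⟩ : ∃ s, s = 2 * W.addY x1 x2 y1 l + W.a₁ * W.addX x1 x2 l + W.a₃ := ⟨_, rfl⟩
  have hm : (2 * l + W.a₁) * (x1 - x2) = s1 - s2 := by
    rw [hs1d, hs2d]; linear_combination 2 * hl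
  have hx3' : 4 * x3 = (2 * l + W.a₁) ^ 2 - W.b₂ - 4 * x1 - 4 * x2 := by
    rw [hx3]; simp only [addX, b₂]; ring
  have hs3'' : s3 = -(2 * l + W.a₁) * (x3 - x1) - s1 := by
    rw [hs3d, hx3, hs1d]; simp only [addY, negAddY, negY, addX]; ring
  rw [← hs3d] at hs3 ⊢
  rw [← hx3]
  rw [← hs1d] at e1 hs1 ⊢
  rw [← hs2d] at e2 hs2 ⊢
  have h4 : (4 : F) ≠ 0 := by
    have : (4 : F) = 2 * 2 := by norm_num
    rw [this]; exact mul_ne_zero h2 h2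
  refine chart_of_aff hs1 hs2 hs3 ?_ ?_
  · have := add_X e1 e2
    have hc : 4 * (x1 - x2) ^ 2 ≠ 0 := mul_ne_zero h4 (pow_ne_zero 2 hd)
    apply mul_left_cancel₀ hc
    rw [this]
    have : (s1 - s2) ^ 2 - (W.b₂ + 4 * x1 + 4 * x2) * (x1 - x2) ^ 2 = 4 * (x1 - x2) ^ 2 * x3 := by
      rw [← hm]; linear_combination (-(x1 - x2) ^ 2) * hx3'
    rw [this]; ring
  · have := add_Y e1 e2
    have hc : 4 * (x1 - x2) ^ 3 ≠ 0 := mul_ne_zero h4 (pow_ne_zero 3 hd)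
    apply mul_left_cancel₀ hc
    rw [this]
    have : (-(s1 - s2) * (((s1 - s2) ^ 2 - (W.b₂ + 4 * x1 + 4 * x2) * (x1 - x2) ^ 2)
        - 4 * x1 * (x1 - x2) ^ 2) - 4 * s1 * (x1 - x2) ^ 3) = 4 * (x1 - x2) ^ 3 * s3 := by
      rw [hs3'', ← hm]
      linear_combination ((2 * l + W.a₁) * (x1 - x2) ^ 3) * hx3'
    rw [this]; ring

/-- the tangent case, in coordinates (`l` = the slope). -/
theorem law_tangent (h2 : (2 : F) ≠ 0) {x1 y1 l : F}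
    (e1 : (2 * y1 + W.a₁ * x1 + W.a₃) ^ 2 = 4 * x1 ^ 3 + W.b₂ * x1 ^ 2 + 2 * W.b₄ * x1 + W.b₆)
    (hs1 : 2 * y1 + W.a₁ * x1 + W.a₃ ≠ 0)
    (hs3 : 2 * W.addY x1 x1 y1 l + W.a₁ * W.addX x1 x1 l + W.a₃ ≠ 0)
    (hl : l * (2 * y1 + W.a₁ * x1 + W.a₃) = 3 * x1 ^ 2 + 2 * W.a₂ * x1 + W.a₄ - W.a₁ * y1) :
    W.addX x1 x1 l / (2 * W.addY x1 x1 y1 l + W.a₁ * W.addX x1 x1 l + W.a₃) *
        SY W.b₂ W.b₄ W.b₆ (x1 / (2 * y1 + W.a₁ * x1 + W.a₃)) 1 (1 / (2 * y1 + W.a₁ * x1 + W.a₃))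
          (x1 / (2 * y1 + W.a₁ * x1 + W.a₃)) 1 (1 / (2 * y1 + W.a₁ * x1 + W.a₃))
      = SX W.b₂ W.b₄ W.b₆ (x1 / (2 * y1 + W.a₁ * x1 + W.a₃)) 1 (1 / (2 * y1 + W.a₁ * x1 + W.a₃))
          (x1 / (2 * y1 + W.a₁ * x1 + W.a₃)) 1 (1 / (2 * y1 + W.a₁ * x1 + W.a₃)) ∧
    1 / (2 * W.addY x1 x1 y1 l + W.a₁ * W.addX x1 x1 l + W.a₃) *
        SY W.b₂ W.b₄ W.b₆ (x1 / (2 * y1 + W.a₁ * x1 + W.a₃)) 1 (1 / (2 * y1 + W.a₁ * x1 + W.a₃))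
          (x1 / (2 * y1 + W.a₁ * x1 + W.a₃)) 1 (1 / (2 * y1 + W.a₁ * x1 + W.a₃))
      = SZ W.b₂ W.b₄ W.b₆ (x1 / (2 * y1 + W.a₁ * x1 + W.a₃)) 1 (1 / (2 * y1 + W.a₁ * x1 + W.a₃))
          (x1 / (2 * y1 + W.a₁ * x1 + W.a₃)) 1 (1 / (2 * y1 + W.a₁ * x1 + W.a₃)) := by
  obtain ⟨s1, hs1d⟩ : ∃ s, s = 2 * y1 + W.a₁ * x1 + W.a₃ := ⟨_, rfl⟩
  obtain ⟨x3, hx3⟩ : ∃ x, x = W.addX x1 x1 l := ⟨_, rfl⟩
  obtain ⟨s3, hs3d⟩ : ∃ s, s = 2 * W.addY x1 x1 y1 l + W.a₁ * W.addX x1 x1 l + W.a₃ := ⟨_, rfl⟩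
  have hm : (2 * l + W.a₁) * s1 = 6 * x1 ^ 2 + W.b₂ * x1 + W.b₄ := by
    rw [hs1d]; simp only [b₂, b₄]; linear_combination 2 * hl
  have hx3' : 4 * x3 = (2 * l + W.a₁) ^ 2 - W.b₂ - 8 * x1 := by
    rw [hx3]; simp only [addX, b₂]; ring
  have hs3'' : s3 = -(2 * l + W.a₁) * (x3 - x1) - s1 := by
    rw [hs3d, hx3, hs1d]; simp only [addY, negAddY, negY, addX]; ring
  rw [← hs3d] at hs3 ⊢
  rw [← hx3]
  rw [← hs1d] at e1 hs1 ⊢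
  have h4 : (4 : F) ≠ 0 := by
    have : (4 : F) = 2 * 2 := by norm_num
    rw [this]; exact mul_ne_zero h2 h2
  refine chart_of_aff hs1 hs1 hs3 ?_ ?_
  · have := dbl_X e1
    have hc : 4 * s1 ^ 2 ≠ 0 := mul_ne_zero h4 (pow_ne_zero 2 hs1)
    apply mul_left_cancel₀ hc
    rw [this]
    have : (6 * x1 ^ 2 + W.b₂ * x1 + W.b₄) ^ 2 - (W.b₂ + 8 * x1) * s1 ^ 2 = 4 * s1 ^ 2 * x3 := by
      rw [← hm]; linear_combination (-s1 ^ 2) * hx3'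
    rw [this]; ring
  · have := dbl_Y e1
    have hc : 4 * s1 ^ 3 ≠ 0 := mul_ne_zero h4 (pow_ne_zero 3 hs1)
    apply mul_left_cancel₀ hc
    rw [this]
    have : (-(6 * x1 ^ 2 + W.b₂ * x1 + W.b₄) * (((6 * x1 ^ 2 + W.b₂ * x1 + W.b₄) ^ 2
        - (W.b₂ + 8 * x1) * s1 ^ 2) - 4 * x1 * s1 ^ 2) - 4 * s1 ^ 4) = 4 * s1 ^ 3 * s3 := by
      rw [hs3'', ← hm]
      linear_combination ((2 * l + W.a₁) * s1 ^ 3) * hx3'
    rw [this]; ring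

variable [DecidableEq F]

/-- **the complete addition law.** -/
theorem add_law (h2 : (2 : F) ≠ 0) {P Q : W.Point} (hP : NoTwo P) (hQ : NoTwo Q)
    (hPQ : NoTwo (P + Q)) :
    al (P + Q) * NN P Q = NX P Q ∧ be (P + Q) * NN P Q = NZ P Q := by
  by_cases hP0 : P = 0
  · subst hP0
    simp [NN, NX, NZ, SX_zero_left, SY_zero_left, SZ_zero_left]
  by_cases hQ0 : Q = 0
  · subst hQ0
    simp [NN, NX, NZ, SX_zero_right, SY_zero_right, SZ_zero_right]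
  by_cases h0 : P + Q = 0
  · have hQ' : Q = -P := (neg_eq_of_add_eq_zero_right h0).symm
    rw [h0, hQ']
    simp only [al_zero, be_zero, zero_mul, NX, NZ, al_neg, be_neg]
    constructor
    · simp only [SX]; ring
    · simp only [SZ]; ring
  have hs3 := psi_ne_zero h0 hPQ
  have hs1 := psi_ne_zero hP0 hP
  have hs2 := psi_ne_zero hQ0 hQ
  have e1 := psi_sq hP0
  have e2 := psi_sq hQ0
  cases P with
  | zero => exact absurd rfl hP0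
  | some x1 y1 h1 =>
    cases Q with
    | zero => exact absurd rfl hQ0
    | some x2 y2 h2' =>
      simp only [psi, xc_some, yc_some] at hs1 hs2 e1 e2
      by_cases hx : x1 = x2
      · subst hx
        have hy : y1 = y2 := by
          rcases Y_eq_of_X_eq h1.1 h2'.1 rfl with h | h
          · exact h
          · exact absurd (add_of_Y_eq rfl h) h0
        subst hy
        have hyn : y1 ≠ W.negY x1 y1 := fun h => h0 (add_self_of_Y_eq h)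
        rw [add_self_of_Y_ne hyn] at hs3 ⊢
        simp only [psi, xc_some, yc_some] at hs3
        simp only [NN, NX, NZ, al, be]
        refine law_tangent h2 e1 hs1 hs3 ?_
        rw [slope_of_Y_ne rfl hyn]
        have : y1 - W.negY x1 y1 = 2 * y1 + W.a₁ * x1 + W.a₃ := by simp only [negY]; ring
        rw [this]
        exact div_mul_cancel₀ _ hs1
      · rw [add_of_X_ne hx] at hs3 ⊢
        simp only [psi, xc_some, yc_some] at hs3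
        simp only [NN, NX, NZ, al, be]
        refine law_chord h2 e1 e2 hs1 hs2 hs3 hx ?_
        rw [slope_of_X_ne hx]
        have hd : x1 - x2 ≠ 0 := sub_ne_zero.2 hx
        exact div_mul_cancel₀ _ hd

end Fermat.Agent.ML.ECal
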