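import Fermat.Agent.ML.ECal.LawAff
import Fermat.Agent.S05.Formulas

/-!
# ML / ESide / Flat / Chart : the chart `ψ ≠ 0` of a Weierstrass curve and the complete addition law on it

`ψ = 2y + a₁x + a₃`, `al = x/ψ`, `be = 1/ψ`, `al O = be O = 0`.
`NoTwo P` : `P` is not a point of exact order `2`.
-/

set_option autoImplicit false

open WeierstrassCurve WeierstrassCurve.Affine WeierstrassCurve.Affine.Point
open Fermat.Agent.S05

namespace Fermat.Agent.ML.ECal

variable {F : Type*} [Field F] {W : WeierstrassCurve.Affine F}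

/-- `ψ₂`. -/
def psi (P : W.Point) : F := 2 * yc P + W.a₁ * xc P + W.a₃

/-- `x/ψ`. -/
def al : W.Point → F
  | .zero => 0
  | .some x y _ => x / (2 * y + W.a₁ * x + W.a₃)

/-- `1/ψ`. -/
def be : W.Point → F
  | .zero => 0
  | .some x y _ => 1 / (2 * y + W.a₁ * x + W.a₃)

@[simp] theorem al_zero : al (0 : W.Point) = 0 := rfl
@[simp] theorem be_zero : be (0 : W.Point) = 0 := rfl

theorem al_of_ne {P : W.Point} (hP : P ≠ 0) : al P = xc P / psi P := by
  cases P with
  | zero => exact absurd rfl hP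
  | some x y h => rfl

theorem be_of_ne {P : W.Point} (hP : P ≠ 0) : be P = 1 / psi P := by
  cases P with
  | zero => exact absurd rfl hP
  | some x y h => rfl

theorem psi_sq {P : W.Point} (hP : P ≠ 0) :
    psi P ^ 2 = 4 * xc P ^ 3 + W.b₂ * xc P ^ 2 + 2 * W.b₄ * xc P + W.b₆ := psi2_sq hP

theorem al_neg (P : W.Point) : al (-P) = -al P := by
  cases P with
  | zero => simp [← zero_def]
  | some x y h =>
    rw [neg_some]
    simp only [al, negY]
    rw [← neg_div_neg_eq, neg_div]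
    congr 2
    ring

theorem be_neg (P : W.Point) : be (-P) = -be P := by
  cases P with
  | zero => simp [← zero_def]
  | some x y h =>
    rw [neg_some]
    simp only [be, negY]
    rw [← neg_div_neg_eq, neg_div]
    congr 2
    ring

section Dec

variable [DecidableEq F]

/-- `P` is not a point of exact order `2`. -/
def NoTwo (P : W.Point) : Prop := P + P = 0 → P = 0

theorem psi_ne_zero {P : W.Point} (hP : P ≠ 0) (h : NoTwo P) : psi P ≠ 0 := fun h0 =>
  hP (h ((add_self_eq_zero_iff hP).2 h0))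

theorem be_ne_zero {P : W.Point} (hP : P ≠ 0) (h : NoTwo P) : be P ≠ 0 := by
  rw [be_of_ne hP]
  exact one_div_ne_zero (psi_ne_zero hP h)

/-- the equation of the curve in the chart. -/
theorem chart_eq {P : W.Point} (h : NoTwo P) :
    be P = 4 * al P ^ 3 + W.b₂ * al P ^ 2 * be P + 2 * W.b₄ * al P * be P ^ 2 + W.b₆ * be P ^ 3 := by
  by_cases hP : P = 0
  · subst hP; simp
  · have hs := psi_ne_zero hP h
    have e := psi_sq hP
    rw [al_of_ne hP, be_of_ne hP]
    field_simp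
    linear_combination e

end Dec

/-- from the affine coordinates to the chart. -/
theorem chart_of_aff {b2 b4 b6 x1 s1 x2 s2 x3 s3 : F} (hs1 : s1 ≠ 0) (hs2 : s2 ≠ 0) (hs3 : s3 ≠ 0)
    (hX : SX b2 b4 b6 x1 s1 1 x2 s2 1 = x3 * SZ b2 b4 b6 x1 s1 1 x2 s2 1)
    (hY : SY b2 b4 b6 x1 s1 1 x2 s2 1 = s3 * SZ b2 b4 b6 x1 s1 1 x2 s2 1) :
    x3 / s3 * SY b2 b4 b6 (x1 / s1) 1 (1 / s1) (x2 / s2) 1 (1 / s2)
        = SX b2 b4 b6 (x1 / s1) 1 (1 / s1) (x2 / s2) 1 (1 / s2) ∧
      1 / s3 * SY b2 b4 b6 (x1 / s1) 1 (1 / s1) (x2 / s2) 1 (1 / s2)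
        = SZ b2 b4 b6 (x1 / s1) 1 (1 / s1) (x2 / s2) 1 (1 / s2) := by
  have eX := SX_smul b2 b4 b6 x1 s1 1 x2 s2 1 (1 / s1) (1 / s2)
  have eY := SY_smul b2 b4 b6 x1 s1 1 x2 s2 1 (1 / s1) (1 / s2)
  have eZ := SZ_smul b2 b4 b6 x1 s1 1 x2 s2 1 (1 / s1) (1 / s2)
  rw [one_div_mul_cancel hs1, one_div_mul_cancel hs2, mul_one, mul_one, one_div_mul_eq_div,
    one_div_mul_eq_div] at eX eY eZ
  rw [eX, eY, eZ, hX, hY]
  constructor
  · field_simp
  · field_simp

end Fermat.Agent.ML.ECal
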