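import Mathlib

/-!
# ML / ESide / Flat / Law : the complete addition law attached to the line `ψ = 0`

Curve `Y² Z = 4 X³ + b₂ X² Z + 2 b₄ X Z² + b₆ Z³` (`Y = ψ = 2y + a₁x + a₃`).  `(SX : SY : SZ)` is the addition law of
bidegree `(2,2)` of Bosma-Lenstra attached to the line `Y = 0`: it is exceptional only at the pairs `(P, Q)` with `P - Q` of
exact order `2`.  All the coefficients are in `ℤ[b₂, b₄, b₆]`.  Pure polynomial identities.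
-/

set_option autoImplicit false

namespace Fermat.Agent.ML.ECal

variable {R : Type*} [CommRing R]

/-- the `X`-coordinate of the sum. -/
def SX (b2 b4 b6 X1 Y1 Z1 X2 Y2 Z2 : R) : R :=
  -b2 * b6 * (Y1 * Z1 * Z2 ^ 2 + Z1 ^ 2 * Y2 * Z2) - b2 * (X1 ^ 2 * X2 * Y2 + X1 * Y1 * X2 ^ 2)
    + b4 ^ 2 * (Y1 * Z1 * Z2 ^ 2 + Z1 ^ 2 * Y2 * Z2)
    - 2 * b4 * (X1 ^ 2 * Y2 * Z2 + Y1 * Z1 * X2 ^ 2) - 4 * b4 * (X1 * Y1 * X2 * Z2 + X1 * Z1 * X2 * Y2)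
    - 3 * b6 * (X1 * Y1 * Z2 ^ 2 + Z1 ^ 2 * X2 * Y2)
    - 6 * b6 * (X1 * Z1 * Y2 * Z2 + Y1 * Z1 * X2 * Z2) + X1 * Y1 * Y2 ^ 2 + Y1 ^ 2 * X2 * Y2

/-- the `Y`-coordinate of the sum. -/
def SY (b2 b4 b6 X1 Y1 Z1 X2 Y2 Z2 : R) : R :=
  b2 ^ 2 * b6 * (X1 * Z1 * Z2 ^ 2 + Z1 ^ 2 * X2 * Z2) - b2 ^ 2 * X1 ^ 2 * X2 ^ 2
    - b2 * b4 ^ 2 * (X1 * Z1 * Z2 ^ 2 + Z1 ^ 2 * X2 * Z2)
    + 2 * b2 * b4 * b6 * Z1 ^ 2 * Z2 ^ 2 - 2 * b2 * b4 * (X1 ^ 2 * X2 * Z2 + X1 * Z1 * X2 ^ 2)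
    + 3 * b2 * b6 * (X1 ^ 2 * Z2 ^ 2 + Z1 ^ 2 * X2 ^ 2)
    + 12 * b2 * b6 * X1 * Z1 * X2 * Z2 - 2 * b4 ^ 3 * Z1 ^ 2 * Z2 ^ 2
    - 4 * b4 ^ 2 * (X1 ^ 2 * Z2 ^ 2 + Z1 ^ 2 * X2 ^ 2) - 16 * b4 ^ 2 * X1 * Z1 * X2 * Z2
    - 6 * b4 * b6 * (X1 * Z1 * Z2 ^ 2 + Z1 ^ 2 * X2 * Z2) + 24 * b4 * X1 ^ 2 * X2 ^ 2
    - 9 * b6 ^ 2 * Z1 ^ 2 * Z2 ^ 2 + 36 * b6 * (X1 ^ 2 * X2 * Z2 + X1 * Z1 * X2 ^ 2)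
    + Y1 ^ 2 * Y2 ^ 2

/-- the `Z`-coordinate of the sum. -/
def SZ (b2 b4 b6 X1 Y1 Z1 X2 Y2 Z2 : R) : R :=
  b2 * (X1 ^ 2 * Y2 * Z2 + Y1 * Z1 * X2 ^ 2) + 2 * b2 * (X1 * Y1 * X2 * Z2 + X1 * Z1 * X2 * Y2)
    + 2 * b4 * (X1 * Y1 * Z2 ^ 2 + Z1 ^ 2 * X2 * Y2)
    + 4 * b4 * (X1 * Z1 * Y2 * Z2 + Y1 * Z1 * X2 * Z2) + 3 * b6 * (Y1 * Z1 * Z2 ^ 2 + Z1 ^ 2 * Y2 * Z2)
    + 12 * (X1 ^ 2 * X2 * Y2 + X1 * Y1 * X2 ^ 2)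
    + Y1 ^ 2 * Y2 * Z2 + Y1 * Z1 * Y2 ^ 2

section Map

variable {S : Type*} [CommRing S] (f : R →+* S) (b2 b4 b6 X1 Y1 Z1 X2 Y2 Z2 : R)

theorem map_SX : f (SX b2 b4 b6 X1 Y1 Z1 X2 Y2 Z2)
    = SX (f b2) (f b4) (f b6) (f X1) (f Y1) (f Z1) (f X2) (f Y2) (f Z2) := by
  simp only [SX, map_add, map_sub, map_mul, map_pow, map_neg, map_ofNat]

theorem map_SY : f (SY b2 b4 b6 X1 Y1 Z1 X2 Y2 Z2)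
    = SY (f b2) (f b4) (f b6) (f X1) (f Y1) (f Z1) (f X2) (f Y2) (f Z2) := by
  simp only [SY, map_add, map_sub, map_mul, map_pow, map_neg, map_ofNat]

theorem map_SZ : f (SZ b2 b4 b6 X1 Y1 Z1 X2 Y2 Z2)
    = SZ (f b2) (f b4) (f b6) (f X1) (f Y1) (f Z1) (f X2) (f Y2) (f Z2) := by
  simp only [SZ, map_add, map_sub, map_mul, map_pow, map_neg, map_ofNat]

end Map

section Homog

variable (b2 b4 b6 X1 Y1 Z1 X2 Y2 Z2 c d : R)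

theorem SX_smul : SX b2 b4 b6 (c * X1) (c * Y1) (c * Z1) (d * X2) (d * Y2) (d * Z2)
    = c ^ 2 * d ^ 2 * SX b2 b4 b6 X1 Y1 Z1 X2 Y2 Z2 := by
  simp only [SX]; ring

theorem SY_smul : SY b2 b4 b6 (c * X1) (c * Y1) (c * Z1) (d * X2) (d * Y2) (d * Z2)
    = c ^ 2 * d ^ 2 * SY b2 b4 b6 X1 Y1 Z1 X2 Y2 Z2 := by
  simp only [SY]; ring

theorem SZ_smul : SZ b2 b4 b6 (c * X1) (c * Y1) (c * Z1) (d * X2) (d * Y2) (d * Z2)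
    = c ^ 2 * d ^ 2 * SZ b2 b4 b6 X1 Y1 Z1 X2 Y2 Z2 := by
  simp only [SZ]; ring

end Homog

section Zero

variable (b2 b4 b6 X Y Z : R)

theorem SX_zero_left : SX b2 b4 b6 0 1 0 X Y Z = X * Y := by simp only [SX]; ring
theorem SY_zero_left : SY b2 b4 b6 0 1 0 X Y Z = Y ^ 2 := by simp only [SY]; ring
theorem SZ_zero_left : SZ b2 b4 b6 0 1 0 X Y Z = Y * Z := by simp only [SZ]; ring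
theorem SX_zero_right : SX b2 b4 b6 X Y Z 0 1 0 = X * Y := by simp only [SX]; ring
theorem SY_zero_right : SY b2 b4 b6 X Y Z 0 1 0 = Y ^ 2 := by simp only [SY]; ring
theorem SZ_zero_right : SZ b2 b4 b6 X Y Z 0 1 0 = Y * Z := by simp only [SZ]; ring

/-- `P + (-P) = O`. -/
theorem SX_neg_self : SX b2 b4 b6 X Y Z X (-Y) Z = 0 := by simp only [SX]; ring
theorem SZ_neg_self : SZ b2 b4 b6 X Y Z X (-Y) Z = 0 := by simp only [SZ]; ring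

end Zero

/-- `N (P, -Q) = N (P, Q)`. -/
theorem SY_neg_right (b2 b4 b6 X1 Y1 Z1 X2 Y2 Z2 : R) :
    SY b2 b4 b6 X1 Y1 Z1 (-X2) Y2 (-Z2) = SY b2 b4 b6 X1 Y1 Z1 X2 Y2 Z2 := by
  simp only [SY]; ring

/-! ### identities in the chart `Y = 1` -/

section Chart

variable {b2 b4 b6 a1 e1 a2 e2 : R}

/-- `SZ (p, p) = 8 β`. -/
theorem SZ_self_chart (h1 : e1 = 4 * a1 ^ 3 + b2 * a1 ^ 2 * e1 + 2 * b4 * a1 * e1 ^ 2 + b6 * e1 ^ 3) :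
    SZ b2 b4 b6 a1 1 e1 a1 1 e1 = 8 * e1 := by
  simp only [SZ]
  linear_combination (-6) * h1

/-- the telescoping identity. -/
theorem det_dbl_chart
    (h1 : e1 = 4 * a1 ^ 3 + b2 * a1 ^ 2 * e1 + 2 * b4 * a1 * e1 ^ 2 + b6 * e1 ^ 3)
    (h2 : e2 = 4 * a2 ^ 3 + b2 * a2 ^ 2 * e2 + 2 * b4 * a2 * e2 ^ 2 + b6 * e2 ^ 3) :
    SX b2 b4 b6 a1 1 e1 a1 1 e1 * SZ b2 b4 b6 a2 1 e2 a2 1 e2
      - SX b2 b4 b6 a2 1 e2 a2 1 e2 * SZ b2 b4 b6 a1 1 e1 a1 1 e1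
      = 16 * SY b2 b4 b6 a1 1 e1 a2 1 e2 * (a1 * e2 - a2 * e1) := by
  simp only [SX, SY, SZ]
  linear_combination
    (-(1 : R)) * (b2 ^ 2 * a2 ^ 2 * e2 + 2 * b2 * b4 * a2 * e2 ^ 2 - 3 * b2 * b6 * e2 ^ 3 - b2 * e2
      + 4 * b4 ^ 2 * e2 ^ 3 - 24 * b4 * a2 ^ 2 * e2 - 36 * b6 * a2 * e2 ^ 2 - 12 * a2) * h1
    + (b2 ^ 2 * a1 ^ 2 * e1 + 2 * b2 * b4 * a1 * e1 ^ 2 - 3 * b2 * b6 * e1 ^ 3 - b2 * e1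
      + 4 * b4 ^ 2 * e1 ^ 3 - 24 * b4 * a1 ^ 2 * e1 - 36 * b6 * a1 * e1 ^ 2 - 12 * a1) * h2

end Chart

end Fermat.Agent.ML.ECal
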