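import Fermat.Agent.ML.ECal.Law

/-!
# ML / ESide / Flat / LawAff : the addition law against the chord-tangent formulas (polynomial identities)

`(x, s)` = affine coordinates, `s = ψ = 2y + a₁x + a₃`, `s² = 4x³ + b₂x² + 2b₄x + b₆`.
The cofactors were computed by division by `s₁² - Ψ(x₁)`, `s₂² - Ψ(x₂)`.
-/

set_option autoImplicit false
set_option maxHeartbeats 1000000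

namespace Fermat.Agent.ML.ECal

variable {R : Type*} [CommRing R] {b2 b4 b6 x1 s1 x2 s2 : R}

theorem add_X (h1 : s1 ^ 2 = 4 * x1 ^ 3 + b2 * x1 ^ 2 + 2 * b4 * x1 + b6)
    (h2 : s2 ^ 2 = 4 * x2 ^ 3 + b2 * x2 ^ 2 + 2 * b4 * x2 + b6) :
    4 * (x1 - x2) ^ 2 * SX b2 b4 b6 x1 s1 1 x2 s2 1
      = ((s1 - s2) ^ 2 - (b2 + 4 * x1 + 4 * x2) * (x1 - x2) ^ 2) * SZ b2 b4 b6 x1 s1 1 x2 s2 1 := by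
  simp only [SX, SZ]
  linear_combination
    (- b2*x1^2*s2 - 2*b2*x1*s1*x2 - b2*s1*x2^2 + 3*b2*x2^2*s2 - 2*b4*x1*s1 - 2*b4*x1*s2 -
      4*b4*s1*x2 + 6*b4*x2*s2 - 3*b6*s1 + 2*b6*s2 - 12*x1^2*x2*s2 - 12*x1*s1*x2^2 + 12*x1*x2^2*s2 -
      s1^2*s2 + s1*s2^2 + 8*x2^3*s2 + s2^3) * h1
    + (4*b2*x1^2*s1 - 2*b2*x1*x2*s2 - b2*s1*x2^2 + 8*b4*x1*s1 - 2*b4*x1*s2 - 2*b4*s1*x2 - 2*b4*x2*s2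
      + 3*b6*s1 - 2*b6*s2 + 12*x1^3*s1 + 4*x1^3*s2 + 12*x1^2*s1*x2 - 12*x1^2*x2*s2 - 12*x1*s1*x2^2
      - s1*s2^2) * h2

theorem add_Y (h1 : s1 ^ 2 = 4 * x1 ^ 3 + b2 * x1 ^ 2 + 2 * b4 * x1 + b6)
    (h2 : s2 ^ 2 = 4 * x2 ^ 3 + b2 * x2 ^ 2 + 2 * b4 * x2 + b6) :
    4 * (x1 - x2) ^ 3 * SY b2 b4 b6 x1 s1 1 x2 s2 1
      = (-(s1 - s2) * (((s1 - s2) ^ 2 - (b2 + 4 * x1 + 4 * x2) * (x1 - x2) ^ 2) - 4 * x1 * (x1 - x2) ^ 2)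
          - 4 * s1 * (x1 - x2) ^ 3) * SZ b2 b4 b6 x1 s1 1 x2 s2 1 := by
  simp only [SY, SZ]
  linear_combination
    (2*b2^2*x1^2*x2^2 - b2^2*x2^4 + 4*b2*b4*x1^2*x2 + 4*b2*b4*x1*x2^2 - 4*b2*b4*x2^3 -
      2*b2*b6*x1^2 + 8*b2*b6*x1*x2 - 4*b2*b6*x2^2 - 8*b2*x1^3*x2^2 + b2*x1^2*s1*s2 +
      40*b2*x1^2*x2^3 - 3*b2*x1^2*s2^2 + 2*b2*x1*s1^2*x2 - 2*b2*x1*s1*x2*s2 - 16*b2*x1*x2^4 +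
      b2*s1^2*x2^2 - 4*b2*s1*x2^2*s2 - 8*b2*x2^5 + 3*b2*x2^2*s2^2 + 4*b4^2*x1^2 + 4*b4*b6*x1 -
      16*b4*x1^3*x2 + 48*b4*x1^2*x2^2 + 2*b4*x1*s1^2 + 16*b4*x1*x2^3 - 6*b4*x1*s2^2 + 4*b4*s1^2*x2
      - 10*b4*s1*x2*s2 - 32*b4*x2^4 + 6*b4*x2*s2^2 + b6^2 - 8*b6*x1^3 + 48*b6*x1*x2^2 + 3*b6*s1^2 -
      5*b6*s1*s2 - 32*b6*x2^3 - 32*x1^3*x2^3 + 8*x1^3*s2^2 + 12*x1^2*s1*x2*s2 + 144*x1^2*x2^4 -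
      60*x1^2*x2*s2^2 + 12*x1*s1^2*x2^2 - 24*x1*s1*x2^2*s2 - 96*x1*x2^5 + 60*x1*x2^2*s2^2 + s1^3*s2
      - 2*s1^2*s2^2 - 8*s1*x2^3*s2 - 8*x2^3*s2^2 + 2*s2^4) * h1
    + (- 2*b2^2*x1^4 + b2^2*x1^2*x2^2 - 8*b2*b4*x1^3 + 2*b2*b4*x1^2*x2 + 2*b2*b4*x1*x2^2 +
      b2*b6*x1^2 - 8*b2*b6*x1*x2 + 5*b2*b6*x2^2 + 4*b2*x1^5 - 44*b2*x1^4*x2 + 32*b2*x1^3*x2^2 -
      2*b2*x1^2*s1^2 + 4*b2*x1^2*s1*s2 + b2*x1^2*s2^2 + 2*b2*x1*s1*x2*s2 - 2*b2*x1*x2*s2^2 -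
      b2*s1*x2^2*s2 - 12*b4^2*x1^2 + 12*b4^2*x1*x2 - 4*b4^2*x2^2 - 6*b4*b6*x1 + 2*b4*b6*x2 +
      24*b4*x1^4 - 112*b4*x1^3*x2 + 72*b4*x1^2*x2^2 - 4*b4*x1*s1^2 + 10*b4*x1*s1*s2 - 2*b4*x2*s2^2
      - b6^2 + 40*b6*x1^3 - 108*b6*x1^2*x2 + 60*b6*x1*x2^2 - 2*b6*s1^2 + 5*b6*s1*s2 - b6*s2^2 +
      32*x1^6 - 144*x1^5*x2 + 96*x1^4*x2^2 - 8*x1^3*s1^2 + 8*x1^3*s1*s2 + 8*x1^3*s2^2 +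
      24*x1^2*s1*x2*s2 - 12*x1^2*x2*s2^2 - 12*x1*s1*x2^2*s2 - s1*s2^3) * h2

theorem dbl_X (h1 : s1 ^ 2 = 4 * x1 ^ 3 + b2 * x1 ^ 2 + 2 * b4 * x1 + b6) :
    4 * s1 ^ 2 * SX b2 b4 b6 x1 s1 1 x1 s1 1
      = ((6 * x1 ^ 2 + b2 * x1 + b4) ^ 2 - (b2 + 8 * x1) * s1 ^ 2) * SZ b2 b4 b6 x1 s1 1 x1 s1 1 := by
  simp only [SX, SZ]
  linear_combination
    (6*b2^2*x1^2*s1 + 12*b2*b4*x1*s1 + 72*b2*x1^3*s1 + 2*b2*s1^3 + 6*b4^2*s1 + 72*b4*x1^2*s1 +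
      216*x1^4*s1 + 24*x1*s1^3) * h1

theorem dbl_Y (h1 : s1 ^ 2 = 4 * x1 ^ 3 + b2 * x1 ^ 2 + 2 * b4 * x1 + b6) :
    4 * s1 ^ 3 * SY b2 b4 b6 x1 s1 1 x1 s1 1
      = (-(6 * x1 ^ 2 + b2 * x1 + b4) * (((6 * x1 ^ 2 + b2 * x1 + b4) ^ 2 - (b2 + 8 * x1) * s1 ^ 2)
          - 4 * x1 * s1 ^ 2) - 4 * s1 ^ 4) * SZ b2 b4 b6 x1 s1 1 x1 s1 1 := by
  simp only [SY, SZ]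
  linear_combination
    (- 6*b2^3*x1^3*s1 - 18*b2^2*b4*x1^2*s1 - 108*b2^2*x1^4*s1 - 2*b2^2*x1*s1^3 - 18*b2*b4^2*x1*s1
      - 216*b2*b4*x1^3*s1 - 2*b2*b4*s1^3 - 648*b2*x1^5*s1 - 6*b4^3*s1 - 108*b4^2*x1^2*s1 -
      648*b4*x1^4*s1 + 48*b4*x1*s1^3 + 36*b6*s1^3 - 1296*x1^6*s1 + 12*s1^5) * h1

theorem dbl_Z (h1 : s1 ^ 2 = 4 * x1 ^ 3 + b2 * x1 ^ 2 + 2 * b4 * x1 + b6) :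
    SZ b2 b4 b6 x1 s1 1 x1 s1 1 = 8 * s1 ^ 3 := by
  simp only [SZ]
  linear_combination (-6 * s1) * h1

end Fermat.Agent.ML.ECal
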