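import Fermat.Agent.ML.ECal.Law
import Fermat.Agent.FLAT.Desc.Star
import Fermat.Agent.FLAT.Alg.Order

/-!
# ML / ESide / Flat / Order : a finite Galois module with an integral chart and a complete addition law with unit
denominator has a Hopf order over `ℤ_(ℓ)`
-/

set_option autoImplicit false

open Polynomial

namespace Fermat.Agent.ML.ECal

open Fermat.Agent.FLAT

section Gen

/-- membership of the three forms in a subring. -/
theorem SX_mem_sub {R S : Type*} [CommRing R] [SetLike S R] [SubringClass S R] (s : S)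
    {b2 b4 b6 X1 Y1 Z1 X2 Y2 Z2 : R} (h2 : b2 ∈ s) (h4 : b4 ∈ s) (h6 : b6 ∈ s)
    (hX1 : X1 ∈ s) (hY1 : Y1 ∈ s) (hZ1 : Z1 ∈ s) (hX2 : X2 ∈ s) (hY2 : Y2 ∈ s) (hZ2 : Z2 ∈ s) :
    SX b2 b4 b6 X1 Y1 Z1 X2 Y2 Z2 ∈ s := by
  simp only [SX]
  apply_rules (maxDepth := 1000) [add_mem, sub_mem, neg_mem, mul_mem, pow_mem, ofNat_mem]

theorem SY_mem_sub {R S : Type*} [CommRing R] [SetLike S R] [SubringClass S R] (s : S)
    {b2 b4 b6 X1 Y1 Z1 X2 Y2 Z2 : R} (h2 : b2 ∈ s) (h4 : b4 ∈ s) (h6 : b6 ∈ s)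
    (hX1 : X1 ∈ s) (hY1 : Y1 ∈ s) (hZ1 : Z1 ∈ s) (hX2 : X2 ∈ s) (hY2 : Y2 ∈ s) (hZ2 : Z2 ∈ s) :
    SY b2 b4 b6 X1 Y1 Z1 X2 Y2 Z2 ∈ s := by
  simp only [SY]
  apply_rules (maxDepth := 1000) [add_mem, sub_mem, neg_mem, mul_mem, pow_mem, ofNat_mem]

theorem SZ_mem_sub {R S : Type*} [CommRing R] [SetLike S R] [SubringClass S R] (s : S)
    {b2 b4 b6 X1 Y1 Z1 X2 Y2 Z2 : R} (h2 : b2 ∈ s) (h4 : b4 ∈ s) (h6 : b6 ∈ s)
    (hX1 : X1 ∈ s) (hY1 : Y1 ∈ s) (hZ1 : Z1 ∈ s) (hX2 : X2 ∈ s) (hY2 : Y2 ∈ s) (hZ2 : Z2 ∈ s) :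
    SZ b2 b4 b6 X1 Y1 Z1 X2 Y2 Z2 ∈ s := by
  simp only [SZ]
  apply_rules (maxDepth := 1000) [add_mem, sub_mem, neg_mem, mul_mem, pow_mem, ofNat_mem]

/-- if the inverse of `x` is integral, it is a polynomial in `x`. -/
theorem inv_mem_adjoin_of_isIntegral {R B : Type*} [CommRing R] [CommRing B] [Algebra R B] {x y : B}
    (hxy : x * y = 1) (hy : IsIntegral R y) : y ∈ Algebra.adjoin R {x} := by
  obtain ⟨P, hmonic, hP⟩ := hy
  have hP' : aeval y P = 0 := hP
  -- `x ^ n * P(y) = (reverse P)(x)`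
  have key : aeval x P.reverse = 0 := by
    let _ : Invertible y := ⟨x, hxy, by rw [mul_comm]; exact hxy⟩
    have h1 : eval₂ (algebraMap R B) x P.reverse * y ^ P.natDegree = eval₂ (algebraMap R B) y P :=
      Polynomial.eval₂_reverse_mul_pow (algebraMap R B) y P
    have h2 : eval₂ (algebraMap R B) x P.reverse * y ^ P.natDegree = 0 := by
      have : eval₂ (algebraMap R B) y P = 0 := hP
      rw [← this]
      exact h1
    have h3 : eval₂ (algebraMap R B) x P.reverse * (y ^ P.natDegree * x ^ P.natDegree) = 0 := by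
      rw [← mul_assoc, h2, zero_mul]
    rw [← mul_pow, mul_comm y x, hxy, one_pow, mul_one] at h3
    exact h3
  have h0 : P.reverse.coeff 0 = 1 := by rw [coeff_zero_reverse]; exact hmonic
  have h4 : aeval x (divX P.reverse) * x + 1 = 0 := by
    have := congrArg (aeval x) (divX_mul_X_add P.reverse)
    rw [map_add, map_mul, aeval_X, aeval_C, h0, map_one, key] at this
    exact this
  have h5 : y = -aeval x (divX P.reverse) := by
    have : (aeval x (divX P.reverse) * x + 1) * y = 0 := by rw [h4, zero_mul]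
    rw [add_mul, one_mul, mul_assoc, hxy, mul_one] at this
    exact eq_neg_of_add_eq_zero_right this
  rw [h5]
  refine neg_mem ?_
  rw [Algebra.adjoin_singleton_eq_range_aeval]
  exact ⟨_, rfl⟩

end Gen

variable {ℓ : ℕ} [Fact ℓ.Prime] {A : ValuationSubring Qb}

/-- a function on a finite set all of whose values have all their conjugates in `A` is integral. -/
theorem isIntegral_fun (hA : A.LiesOverPrime ℓ) {S : Type*} [Finite S] (φ : S → Qb)
    (h : ∀ (s : S) (σ : GQ), σ (φ s) ∈ A) : IsIntegral (Zl ℓ) φ := by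
  classical
  cases nonempty_fintype S
  have h' : ∀ s, IsIntegral (Zl ℓ) (φ s) := fun s => S19.isIntegral_of_forall_mem A hA _ (h s)
  choose P hPm hP using h'
  refine ⟨∏ y, P y, Polynomial.monic_prod_of_monic _ _ fun y _ => hPm y, ?_⟩
  funext y
  have h1 : Polynomial.eval₂ (algebraMap (Zl ℓ) (S → Qb)) φ (∏ y, P y) y
      = Polynomial.eval₂ (algebraMap (Zl ℓ) Qb) (φ y) (∏ y, P y) := by
    exact (Polynomial.aeval_algHom_apply (Pi.evalAlgHom (Zl ℓ) (fun _ : S => Qb) y) φ
      (∏ y, P y)).symm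
  rw [h1, Polynomial.eval₂_finsetProd]
  exact Finset.prod_eq_zero (Finset.mem_univ y) (hP y)

omit [Fact ℓ.Prime] in
/-- a subalgebra separating the points of a finite set spans all the functions. -/
theorem span_top_of_sep {S : Type*} [Finite S] (H : Subalgebra (Zl ℓ) (S → Qb))
    (hsep : ∀ s t : S, s ≠ t → ∃ f ∈ H, f s ≠ f t) :
    Submodule.span Qb (H : Set (S → Qb)) = ⊤ := by
  classical
  cases nonempty_fintype S
  set T : Subalgebra Qb (S → Qb) := Algebra.adjoin Qb (H : Set (S → Qb)) with hT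
  have hTs : Subalgebra.toSubmodule T = Submodule.span Qb (H : Set (S → Qb)) := by
    rw [hT, Algebra.adjoin_eq_span]
    congr 1
    exact congrArg _ (Submonoid.closure_eq H.toSubmonoid)
  rw [← hTs, eq_top_iff]
  intro F _
  choose! φ hφ using hsep
  let e : S → S → Qb := fun s =>
    ∏ t ∈ Finset.univ.erase s, (φ s t - algebraMap Qb (S → Qb) (φ s t t))
  have he : ∀ s, e s ∈ T := fun s => Subalgebra.prod_mem _ fun t ht =>
    T.sub_mem (Algebra.subset_adjoin (hφ s t (Finset.ne_of_mem_erase ht).symm).1)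
      (T.algebraMap_mem _)
  have heval : ∀ s t', e s t' = ∏ t ∈ Finset.univ.erase s, (φ s t t' - φ s t t) := fun s t' => by
    simp only [e, Finset.prod_apply, Pi.sub_apply, Pi.algebraMap_apply, Algebra.algebraMap_self,
      RingHom.id_apply]
  have he0 : ∀ s t', t' ≠ s → e s t' = 0 := fun s t' h => by
    rw [heval]
    exact Finset.prod_eq_zero (Finset.mem_erase.2 ⟨h, Finset.mem_univ _⟩) (sub_self _)
  have hd : ∀ s, e s s ≠ 0 := fun s => by
    rw [heval, Finset.prod_ne_zero_iff]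
    intro t ht
    exact sub_ne_zero.2 (hφ s t (Finset.ne_of_mem_erase ht).symm).2
  have hdec : F = ∑ s, (F s / e s s) • e s := by
    funext t
    rw [Finset.sum_apply, Finset.sum_eq_single t]
    · simp only [Pi.smul_apply, smul_eq_mul]
      rw [div_mul_cancel₀ _ (hd t)]
    · intro s _ hs
      simp only [Pi.smul_apply, smul_eq_mul]
      rw [he0 s t hs.symm, mul_zero]
    · intro h
      exact absurd (Finset.mem_univ t) h
  rw [hdec]
  exact Submodule.sum_mem _ fun s _ => Submodule.smul_mem _ _ (he s)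

/-- **the abstract criterion.** -/
theorem isHopfOrder_of_law (hA : A.LiesOverPrime ℓ) {V : Type} [AddCommGroup V] [Finite V]
    (act : GQ →* AddMonoid.End V) (a e : V → Qb) (b2 b4 b6 : ℤ)
    (haE : ∀ σ, IsEquiv act σ a) (heE : ∀ σ, IsEquiv act σ e)
    (haA : ∀ x, a x ∈ A) (heA : ∀ x, e x ∈ A)
    (hsep : ∀ x y, a x = a y → e x = e y → x = y)
    (hN : ∀ x y, A.valuation (SY (b2 : Qb) b4 b6 (a x) 1 (e x) (a y) 1 (e y)) = 1)
    (hX : ∀ x y, a (x + y) * SY (b2 : Qb) b4 b6 (a x) 1 (e x) (a y) 1 (e y)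
      = SX (b2 : Qb) b4 b6 (a x) 1 (e x) (a y) 1 (e y))
    (hZ : ∀ x y, e (x + y) * SY (b2 : Qb) b4 b6 (a x) 1 (e x) (a y) 1 (e y)
      = SZ (b2 : Qb) b4 b6 (a x) 1 (e x) (a y) 1 (e y)) :
    IsHopfOrder ℓ act (Algebra.adjoin (Zl ℓ) ({a, e} : Set (V → Qb))) := by
  classical
  set H : Subalgebra (Zl ℓ) (V → Qb) := Algebra.adjoin (Zl ℓ) ({a, e} : Set (V → Qb)) with hH
  have haH : a ∈ H := Algebra.subset_adjoin (Set.mem_insert _ _)
  have heH : e ∈ H := Algebra.subset_adjoin (Set.mem_insert_of_mem _ rfl)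
  refine ⟨?_, ?_, ?_, ?_⟩
  · intro h hh σ
    induction hh using Algebra.adjoin_induction with
    | mem g hg =>
      rcases hg with rfl | rfl
      · exact haE σ
      · exact heE σ
    | algebraMap r =>
      intro x
      exact (σ.commutes (r : ℚ)).symm
    | add f g _ _ hf hg =>
      intro x
      rw [Pi.add_apply, Pi.add_apply, hf x, hg x, map_add]
    | mul f g _ _ hf hg =>
      intro x
      rw [Pi.mul_apply, Pi.mul_apply, hf x, hg x, map_mul]
  · refine fg_adjoin_of_finite (Set.toFinite _) ?_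
    rintro g (rfl | rfl)
    · exact isIntegral_fun hA _ fun s σ => by rw [← haE σ s]; exact haA _
    · exact isIntegral_fun hA _ fun s σ => by rw [← heE σ s]; exact heA _
  · refine span_top_of_sep H fun s t hst => ?_
    by_cases h1 : a s = a t
    · by_cases h2 : e s = e t
      · exact absurd (hsep s t h1 h2) hst
      · exact ⟨e, heH, h2⟩
    · exact ⟨a, haH, h1⟩
  · -- comultiplication
    have hone : (1 : V × V → Qb) ∈ box (Subalgebra.toSubmodule H) (Subalgebra.toSubmodule H) :=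
      Submodule.subset_span ⟨1, H.one_mem, 1, H.one_mem, by funext p; simp⟩
    let 𝔅 : Subalgebra (Zl ℓ) (V × V → Qb) :=
      (box (Subalgebra.toSubmodule H) (Subalgebra.toSubmodule H)).toSubalgebra hone
        (fun x y hx hy => box_mul_mem H H hx hy)
    have hfst : ∀ f ∈ H, (fun p : V × V => f p.1) ∈ 𝔅 := fun f hf =>
      Submodule.subset_span ⟨f, hf, 1, H.one_mem, by funext p; simp⟩
    have hsnd : ∀ f ∈ H, (fun p : V × V => f p.2) ∈ 𝔅 := fun f hf =>
      Submodule.subset_span ⟨1, H.one_mem, f, hf, by funext p; simp⟩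
    let a1 : V × V → Qb := fun p => a p.1
    let e1 : V × V → Qb := fun p => e p.1
    let a2 : V × V → Qb := fun p => a p.2
    let e2 : V × V → Qb := fun p => e p.2
    let Nf : V × V → Qb := SY (b2 : V × V → Qb) b4 b6 a1 1 e1 a2 1 e2
    let Xf : V × V → Qb := SX (b2 : V × V → Qb) b4 b6 a1 1 e1 a2 1 e2
    let Zf : V × V → Qb := SZ (b2 : V × V → Qb) b4 b6 a1 1 e1 a2 1 e2
    have hNf : Nf ∈ 𝔅 := SY_mem_sub 𝔅 (intCast_mem _ _) (intCast_mem _ _) (intCast_mem _ _)
      (hfst a haH) (one_mem _) (hfst e heH) (hsnd a haH) (one_mem _) (hsnd e heH)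
    have hXf : Xf ∈ 𝔅 := SX_mem_sub 𝔅 (intCast_mem _ _) (intCast_mem _ _) (intCast_mem _ _)
      (hfst a haH) (one_mem _) (hfst e heH) (hsnd a haH) (one_mem _) (hsnd e heH)
    have hZf : Zf ∈ 𝔅 := SZ_mem_sub 𝔅 (intCast_mem _ _) (intCast_mem _ _) (intCast_mem _ _)
      (hfst a haH) (one_mem _) (hfst e heH) (hsnd a haH) (one_mem _) (hsnd e heH)
    have evN : ∀ p : V × V, Nf p = SY (b2 : Qb) b4 b6 (a p.1) 1 (e p.1) (a p.2) 1 (e p.2) := by
      intro p
      have := map_SY (Pi.evalRingHom (fun _ : V × V => Qb) p) (b2 : V × V → Qb) b4 b6 a1 1 e1 a2 1 e2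
      simp only [map_intCast, map_one] at this
      exact this
    have evX : ∀ p : V × V, Xf p = SX (b2 : Qb) b4 b6 (a p.1) 1 (e p.1) (a p.2) 1 (e p.2) := by
      intro p
      have := map_SX (Pi.evalRingHom (fun _ : V × V => Qb) p) (b2 : V × V → Qb) b4 b6 a1 1 e1 a2 1 e2
      simp only [map_intCast, map_one] at this
      exact this
    have evZ : ∀ p : V × V, Zf p = SZ (b2 : Qb) b4 b6 (a p.1) 1 (e p.1) (a p.2) 1 (e p.2) := by
      intro p
      have := map_SZ (Pi.evalRingHom (fun _ : V × V => Qb) p) (b2 : V × V → Qb) b4 b6 a1 1 e1 a2 1 e2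
      simp only [map_intCast, map_one] at this
      exact this
    have hNv : ∀ p, A.valuation (Nf p) = 1 := fun p => by rw [evN]; exact hN _ _
    have hN0 : ∀ p, Nf p ≠ 0 := fun p h0 => by
      have := hNv p
      rw [h0, map_zero] at this
      exact zero_ne_one this
    let Ninv : V × V → Qb := fun p => (Nf p)⁻¹
    have hmul : Nf * Ninv = 1 := by
      funext p
      exact mul_inv_cancel₀ (hN0 p)
    have hσN : ∀ (σ : GQ) (p : V × V), σ (Nf p) = Nf (act σ p.1, act σ p.2) := by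
      intro σ p
      rw [evN, evN]
      have := map_SY (σ : Qb →+* Qb) (b2 : Qb) b4 b6 (a p.1) 1 (e p.1) (a p.2) 1 (e p.2)
      simp only [map_intCast, map_one] at this
      rw [haE σ p.1, heE σ p.1, haE σ p.2, heE σ p.2]
      exact this
    have hint : IsIntegral (Zl ℓ) Ninv := by
      refine isIntegral_fun hA _ fun p σ => ?_
      show σ (Nf p)⁻¹ ∈ A
      rw [map_inv₀, hσN, ← A.valuation_le_one_iff, map_inv₀, hNv, inv_one]
    have hNinv : Ninv ∈ 𝔅 := by
      have h1 := inv_mem_adjoin_of_isIntegral hmul hint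
      exact (Algebra.adjoin_le (by simpa using hNf) : Algebra.adjoin (Zl ℓ) {Nf} ≤ 𝔅) h1
    refine comulClosed_adjoin _ ?_
    rintro g (rfl | rfl)
    · have : (fun p : V × V => g (p.1 + p.2)) = Xf * Ninv := by
        funext p
        show g (p.1 + p.2) = Xf p * (Nf p)⁻¹
        rw [eq_mul_inv_iff_mul_eq₀ (hN0 p), evN, evX]
        exact hX _ _
      rw [this]
      exact 𝔅.mul_mem hXf hNinv
    · have : (fun p : V × V => g (p.1 + p.2)) = Zf * Ninv := by
        funext p
        show g (p.1 + p.2) = Zf p * (Nf p)⁻¹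
        rw [eq_mul_inv_iff_mul_eq₀ (hN0 p), evN, evZ]
        exact hZ _ _
      rw [this]
      exact 𝔅.mul_mem hZf hNinv

end Fermat.Agent.ML.ECal
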