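import Fermat.Agent.ML.ECal.Unit
import Fermat.Agent.ML.ECal.Order
import Fermat.Agent.ML.ESide.Res
import Fermat.Agent.ML.Rho.Flat

/-!
# ML / ESide / Flat / Main : **[E-FLAT]**  `W[m]`, `m` odd, is finite flat at every odd prime `p` of good reduction

`H = ℤ_(p)[al, be]`, `al = x/ψ`, `be = 1/ψ`, `ψ = 2y + a₁x + a₃`.
-/

set_option autoImplicit false

open WeierstrassCurve WeierstrassCurve.Affine WeierstrassCurve.Affine.Point
open Fermat.Agent.S05

namespace Fermat.Agent.ML.ECal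

open Fermat.Agent.FLAT Fermat.Agent.ML.ESide

section Sep

variable {F : Type*} [Field F] [DecidableEq F] {W : WeierstrassCurve.Affine F}

/-- the chart separates the points. -/
theorem eq_of_al_be (h2 : (2 : F) ≠ 0) {P Q : W.Point} (hP : NoTwo P) (hQ : NoTwo Q)
    (ha : al P = al Q) (hb : be P = be Q) : P = Q := by
  by_cases hP0 : P = 0
  · subst hP0
    by_contra hne
    exact be_ne_zero (Ne.symm hne) hQ (by rw [← hb, be_zero])
  by_cases hQ0 : Q = 0
  · subst hQ0
    exact absurd (by rw [hb, be_zero]) (be_ne_zero hP0 hP)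
  have h1 := psi_ne_zero hP0 hP
  have h2' := psi_ne_zero hQ0 hQ
  rw [be_of_ne hP0, be_of_ne hQ0] at hb
  have hpsi : psi P = psi Q := by
    have := congrArg (fun t => t⁻¹) hb
    simpa using this
  rw [al_of_ne hP0, al_of_ne hQ0, hpsi] at ha
  have hx : xc P = xc Q := by
    have := congrArg (fun t => t * psi Q) ha
    simpa [div_mul_cancel₀ _ h2'] using this
  refine HW.point_ext hP0 hQ0 hx ?_
  have : 2 * yc P = 2 * yc Q := by
    simp only [psi] at hpsi
    rw [hx] at hpsi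
    linear_combination hpsi
  exact mul_left_cancel₀ h2 this

end Sep

local notation "Qbar" => AlgebraicClosure ℚ
local notation "GQ'" => (AlgebraicClosure ℚ ≃ₐ[ℚ] AlgebraicClosure ℚ)

variable (W : WeierstrassCurve ℤ)

theorem b₂_EQb : (HW.EQb W).b₂ = ((W.b₂ : ℤ) : Qbar) := by
  have h1 : (HW.EQb W).b₂ = algebraMap ℚ Qbar ((Int.castRingHom ℚ) W.b₂) := by
    show ((W.map (Int.castRingHom ℚ)).map (algebraMap ℚ Qbar)).b₂ = _
    rw [WeierstrassCurve.map_b₂, WeierstrassCurve.map_b₂]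
  rw [h1]; simp

theorem b₄_EQb : (HW.EQb W).b₄ = ((W.b₄ : ℤ) : Qbar) := by
  have h1 : (HW.EQb W).b₄ = algebraMap ℚ Qbar ((Int.castRingHom ℚ) W.b₄) := by
    show ((W.map (Int.castRingHom ℚ)).map (algebraMap ℚ Qbar)).b₄ = _
    rw [WeierstrassCurve.map_b₄, WeierstrassCurve.map_b₄]
  rw [h1]; simp

theorem b₆_EQb : (HW.EQb W).b₆ = ((W.b₆ : ℤ) : Qbar) := by
  have h1 : (HW.EQb W).b₆ = algebraMap ℚ Qbar ((Int.castRingHom ℚ) W.b₆) := by
    show ((W.map (Int.castRingHom ℚ)).map (algebraMap ℚ Qbar)).b₆ = _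
    rw [WeierstrassCurve.map_b₆, WeierstrassCurve.map_b₆]
  rw [h1]; simp

theorem b₈_EQb : (HW.EQb W).b₈ = ((W.b₈ : ℤ) : Qbar) := by
  have h1 : (HW.EQb W).b₈ = algebraMap ℚ Qbar ((Int.castRingHom ℚ) W.b₈) := by
    show ((W.map (Int.castRingHom ℚ)).map (algebraMap ℚ Qbar)).b₈ = _
    rw [WeierstrassCurve.map_b₈, WeierstrassCurve.map_b₈]
  rw [h1]; simp

theorem goodAt_EQb {p : ℕ} (hp : p.Prime) (hp2 : p ≠ 2) (hgood : W.IsGoodPrimeFor p)
    (A : ValuationSubring Qbar) (hA : A.LiesOverPrime p) : GoodAt A (HW.EQb W) where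
  b2 := by rw [b₂_EQb]; exact intCast_mem A _
  b4 := by rw [b₄_EQb]; exact intCast_mem A _
  b6 := by rw [b₆_EQb]; exact intCast_mem A _
  b8 := by rw [b₈_EQb]; exact intCast_mem A _
  disc := by
    rw [HW.Δ_EQb]
    exact valuation_intCast_eq_one A hp hA hgood
  two := by
    have h : ¬ (p : ℤ) ∣ 2 := by
      intro h
      have h1 : p ∣ 2 := by exact_mod_cast h
      exact hp2 ((Nat.prime_dvd_prime_iff_eq hp Nat.prime_two).1 h1)
    have := valuation_intCast_eq_one A hp hA h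
    simpa using this

/-- Galois equivariance of the chart. -/
theorem al_smul (σ : GQ') (P : S58.EQ W) : al (σ • P) = σ (al P) := by
  cases P with
  | zero => exact (map_zero σ).symm
  | some x y h =>
    show al (Point.map (W' := (W.map (Int.castRingHom ℚ)).toAffine) σ.toAlgHom (Point.some x y h)) = _
    rw [Point.map_some]
    simp only [al]
    rw [map_div₀, map_add, map_add, map_mul, map_mul, map_ofNat]
    have h1 : σ (HW.EQb W).a₁ = (HW.EQb W).a₁ := σ.commutes _
    have h3 : σ (HW.EQb W).a₃ = (HW.EQb W).a₃ := σ.commutes _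
    rw [h1, h3]
    rfl

theorem be_smul (σ : GQ') (P : S58.EQ W) : be (σ • P) = σ (be P) := by
  cases P with
  | zero => exact (map_zero σ).symm
  | some x y h =>
    show be (Point.map (W' := (W.map (Int.castRingHom ℚ)).toAffine) σ.toAlgHom (Point.some x y h)) = _
    rw [Point.map_some]
    simp only [be]
    rw [map_div₀, map_add, map_add, map_mul, map_mul, map_ofNat, map_one]
    have h1 : σ (HW.EQb W).a₁ = (HW.EQb W).a₁ := σ.commutes _
    have h3 : σ (HW.EQb W).a₃ = (HW.EQb W).a₃ := σ.commutes _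
    rw [h1, h3]
    rfl

/-- **[E-FLAT]**, Hopf order form. -/
theorem isHopfOrder_torsW {p : ℕ} [Fact p.Prime] (hp2 : p ≠ 2) (hgood : W.IsGoodPrimeFor p)
    (A : ValuationSubring Qbar) (hA : A.LiesOverPrime p) {m : ℕ} (hm : Odd m) :
    IsHopfOrder p (DistribMulAction.toAddMonoidEnd GQ' (TorsW W m))
      (Algebra.adjoin (Zl p) ({(fun x : TorsW W m => al (x : S58.EQ W)),
        (fun x : TorsW W m => be (x : S58.EQ W))} : Set (TorsW W m → Qbar))) := by
  classical
  have hp : p.Prime := Fact.out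
  have G := goodAt_EQb W hp hp2 hgood A hA
  have := finite_torsW W hm
  have ht : ∀ x : TorsW W m, m • (x : S58.EQ W) = 0 := nsmul_coe_torsW W
  refine isHopfOrder_of_law hA _ _ _ W.b₂ W.b₄ W.b₆ ?_ ?_ ?_ ?_ ?_ ?_ ?_ ?_
  · exact fun σ x => al_smul W σ x
  · exact fun σ x => be_smul W σ x
  · exact fun x => (G.al_be_mem hm (ht x)).1
  · exact fun x => (G.al_be_mem hm (ht x)).2
  · exact fun x y ha hb => Subtype.ext
      (eq_of_al_be G.two_ne (noTwo_of_odd hm (ht x)) (noTwo_of_odd hm (ht y)) ha hb)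
  · intro x y
    have := G.val_NN hm (ht x) (ht y)
    rwa [NN, b₂_EQb, b₄_EQb, b₆_EQb] at this
  · intro x y
    have := (add_law G.two_ne (noTwo_of_odd hm (ht x)) (noTwo_of_odd hm (ht y))
      (noTwo_of_odd hm (ht (x + y)))).1
    rwa [NN, NX, b₂_EQb, b₄_EQb, b₆_EQb] at this
  · intro x y
    have := (add_law G.two_ne (noTwo_of_odd hm (ht x)) (noTwo_of_odd hm (ht y))
      (noTwo_of_odd hm (ht (x + y)))).2
    rwa [NN, NZ, b₂_EQb, b₄_EQb, b₆_EQb] at this

/-- **[E-FLAT]**, finite flat group scheme form. -/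
theorem hasFlatModel_torsW {p : ℕ} [Fact p.Prime] (hp2 : p ≠ 2) (hgood : W.IsGoodPrimeFor p)
    {m : ℕ} (hm : Odd m) :
    HasFlatModel p (TorsW W m) (DistribMulAction.toAddMonoidEnd GQ' (TorsW W m)) := by
  have := finite_torsW W hm
  exact hasFlatModel_of_isHopfOrder (isHopfOrder_torsW W hp2 hgood (S56.Flat.Ap p)
    (S56.liesOverPrime_primeLocalPlace _) hm)

/-- **[E-FLAT]**, in the language of `S32`. -/
theorem hasOrder_torsW {p : ℕ} [Fact p.Prime] (hp2 : p ≠ 2) (hgood : W.IsGoodPrimeFor p)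
    {m : ℕ} (hm : Odd m) : S32.HasOrder p (TorsW W m) := by
  have := finite_torsW W hm
  have h : S32.HasModel p (TorsW W m) := hasFlatModel_torsW W hp2 hgood hm
  exact h.hasOrder

/-- **[E-FLAT]**, in the language of `S56/Flat` and `ML/Rho/Flat` (the shape consumed by `RhoAct.hasFlat_pushRep`). -/
theorem hasFlat_torsW {p : ℕ} [Fact p.Prime] (hp2 : p ≠ 2) (hgood : W.IsGoodPrimeFor p)
    {m : ℕ} (hm : Odd m) :
    S56.Flat.HasFlat (S56.Flat.Ap p).valuation (galAct (S56.Flat.Ip p) (TorsW W m)) := by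
  have := finite_torsW W hm
  have hp : p.Prime := Fact.out
  exact S56.Flat.hasFlat_of_hasOrder (p := p) hp
    (S56.liesOverPrime_primeLocalPlace (ExtCitation.pPrime p))
    (DistribMulAction.toAddMonoidEnd GQ' (TorsW W m)) (fun _ _ => rfl) (hasOrder_torsW W hp2 hgood hm)

end Fermat.Agent.ML.ECal
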