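import Fermat.Agent.ML.ECal.Val

/-!
# ML / ESide / Flat / Tors : on odd torsion the chart is integral and the denominator of the addition law is a unit

Everything by "telescoping along doubling": `2 ^ r • P = P`.
-/

set_option autoImplicit false
set_option linter.unusedSectionVars false

open WeierstrassCurve WeierstrassCurve.Affine WeierstrassCurve.Affine.Point
open Fermat.Agent.S05

namespace Fermat.Agent.ML.ECal

section Group

variable {M : Type*} [AddCommGroup M]

theorem eq_zero_of_odd_of_add_self {m : ℕ} (hm : Odd m) {P : M} (hP : m • P = 0) (h : P + P = 0) :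
    P = 0 := by
  obtain ⟨k, rfl⟩ := hm
  rw [add_nsmul, one_nsmul, mul_nsmul, two_nsmul, h, smul_zero, zero_add] at hP
  exact hP

theorem exists_period {m : ℕ} (hm : Odd m) :
    ∃ r : ℕ, 0 < r ∧ ∀ P : M, m • P = 0 → 2 ^ r • P = P := by
  have hm0 : 0 < m := hm.pos
  have hc : Nat.Coprime 2 m := (Nat.coprime_two_left).2 hm
  refine ⟨Nat.totient m, Nat.totient_pos.2 hm0, fun P hP => ?_⟩
  have h1 : 2 ^ Nat.totient m ≡ 1 [MOD m] := Nat.ModEq.pow_totient hc
  have h2 : m ∣ 2 ^ Nat.totient m - 1 := (Nat.modEq_iff_dvd' Nat.one_le_two_pow).1 h1.symm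
  obtain ⟨k, hk⟩ := h2
  have h3 : 2 ^ Nat.totient m = k * m + 1 := by
    have := Nat.one_le_two_pow (n := Nat.totient m)
    rw [mul_comm] at hk
    omega
  rw [h3, add_nsmul, one_nsmul, mul_nsmul', hP, smul_zero, zero_add]

theorem pow_succ_nsmul (i : ℕ) (P : M) : 2 ^ (i + 1) • P = 2 ^ i • P + 2 ^ i • P := by
  rw [pow_succ, mul_nsmul, two_nsmul]

theorem tors_pow {m : ℕ} {P : M} (hP : m • P = 0) (i : ℕ) : m • (2 ^ i • P) = 0 := by
  rw [smul_comm, hP, smul_zero]

theorem pow_nsmul_ne_zero {m : ℕ} (hm : Odd m) {P : M} (hP : m • P = 0) (h0 : P ≠ 0) (i : ℕ) :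
    2 ^ i • P ≠ 0 := by
  induction i with
  | zero => simpa using h0
  | succ i ih =>
    rw [pow_succ_nsmul]
    exact fun h => ih (eq_zero_of_odd_of_add_self hm (tors_pow hP i) h)

end Group

section Order

variable {Γ : Type*} [PartialOrder Γ]

theorem eq_of_mono_periodic {f : ℕ → Γ} (hf : ∀ i, f i ≤ f (i + 1)) {r : ℕ} (hr : 0 < r)
    (hper : f r = f 0) : f 1 = f 0 := by
  have hmono : Monotone f := monotone_nat_of_le_succ hf
  exact le_antisymm (hper ▸ hmono hr) (hf 0)

theorem eq_of_anti_periodic {f : ℕ → Γ} (hf : ∀ i, f (i + 1) ≤ f i) {r : ℕ} (hr : 0 < r)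
    (hper : f r = f 0) : f 1 = f 0 := by
  have hanti : Antitone f := antitone_nat_of_succ_le hf
  exact le_antisymm (hf 0) (hper ▸ hanti hr)

end Order

variable {K : Type*} [Field K] [DecidableEq K] {A : ValuationSubring K}
  {W : WeierstrassCurve.Affine K}

theorem noTwo_of_odd {m : ℕ} (hm : Odd m) {P : W.Point} (hP : m • P = 0) : NoTwo P :=
  fun h => eq_zero_of_odd_of_add_self hm hP h

namespace GoodAt

variable (G : GoodAt A W)
include G

theorem nonint_dbl {Q : W.Point} (hQ : Q ≠ 0) (h2Q : Q + Q ≠ 0) (hx : 1 < A.valuation (xc Q)) :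
    1 < A.valuation (xc (Q + Q)) := by
  have h := congrArg A.valuation (xc_dbl hQ h2Q)
  rw [map_mul, G.val_Psi_of_nonint hx, G.val_Phi_of_nonint hx, pow_succ _ 3, mul_comm _ (A.valuation (xc Q))] at h
  have h0 : A.valuation (xc Q) ^ 3 ≠ 0 := pow_ne_zero 3 (ne_of_gt (lt_trans zero_lt_one hx))
  rw [mul_right_cancel₀ h0 h]
  exact hx

theorem nonint_of_psi_small {Q : W.Point} (hQ : Q ≠ 0) (h2Q : Q + Q ≠ 0) (hx : xc Q ∈ A)
    (hs : A.valuation (psi Q) < 1) : 1 < A.valuation (xc (Q + Q)) := by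
  have hs0 : psi Q ≠ 0 := fun h => h2Q ((add_self_eq_zero_iff hQ).2 h)
  have hΨ : A.valuation (4 * xc Q ^ 3 + W.b₂ * xc Q ^ 2 + 2 * W.b₄ * xc Q + W.b₆) < 1 := by
    rw [← psi_sq hQ, map_pow]
    exact pow_lt_one₀ zero_le hs two_ne_zero
  have h := congrArg A.valuation (xc_dbl hQ h2Q)
  rw [map_mul, G.val_Phi_of_Psi_small hx hΨ] at h
  by_contra hcon
  rw [not_lt] at hcon
  have : A.valuation (xc (Q + Q)) *
      A.valuation (4 * xc Q ^ 3 + W.b₂ * xc Q ^ 2 + 2 * W.b₄ * xc Q + W.b₆) < 1 := by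
    rw [mul_comm]
    exact mul_lt_one_of_lt_of_le hΨ hcon
  rw [h] at this
  exact lt_irrefl _ this

theorem psi_mem {P : W.Point} (hP : P ≠ 0) (hx : xc P ∈ A) : psi P ∈ A := by
  have hb2 := G.b2
  have hb4 := G.b4
  have hb6 := G.b6
  have h1 : 4 * xc P ^ 3 + W.b₂ * xc P ^ 2 + 2 * W.b₄ * xc P + W.b₆ ∈ A := by
    apply_rules [add_mem, sub_mem, neg_mem, mul_mem, pow_mem, ofNat_mem]
  rw [← psi_sq hP, ← A.valuation_le_one_iff, map_pow] at h1
  rw [← A.valuation_le_one_iff]
  exact (pow_le_one_iff_of_nonneg zero_le two_ne_zero).1 h1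

/-- a point of odd order with integral `x` does not reduce to a point of order `2`. -/
theorem val_psi_eq_one {m : ℕ} (hm : Odd m) {P : W.Point} (hP : m • P = 0) (h0 : P ≠ 0)
    (hx : xc P ∈ A) : A.valuation (psi P) = 1 := by
  refine le_antisymm ((A.valuation_le_one_iff _).2 (G.psi_mem h0 hx)) ?_
  by_contra hcon
  rw [not_le] at hcon
  obtain ⟨r, hr, hper⟩ := exists_period (M := W.Point) hm
  have key : ∀ i : ℕ, 1 < A.valuation (xc (2 ^ (i + 1) • P)) := by
    intro i
    induction i with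
    | zero =>
      have h2 : P + P ≠ 0 := fun h => h0 (eq_zero_of_odd_of_add_self hm hP h)
      have := G.nonint_of_psi_small h0 h2 hx hcon
      rwa [zero_add, pow_one, two_nsmul]
    | succ i ih =>
      rw [pow_succ_nsmul]
      refine G.nonint_dbl (pow_nsmul_ne_zero hm hP h0 _) ?_ ih
      rw [← pow_succ_nsmul]
      exact pow_nsmul_ne_zero hm hP h0 _
  obtain ⟨j, rfl⟩ : ∃ j, r = j + 1 := ⟨r - 1, by omega⟩
  have := key j
  rw [hper P hP] at this
  exact absurd ((A.valuation_le_one_iff _).2 hx) (not_le.2 this)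

/-- **integrality of the chart.** -/
theorem al_be_mem {m : ℕ} (hm : Odd m) {P : W.Point} (hP : m • P = 0) : al P ∈ A ∧ be P ∈ A := by
  by_cases h0 : P = 0
  · subst h0
    simp [zero_mem]
  have hs0 : psi P ≠ 0 := psi_ne_zero h0 (noTwo_of_odd hm hP)
  rw [al_of_ne h0, be_of_ne h0]
  by_cases hx : xc P ∈ A
  · have h1 := G.val_psi_eq_one hm hP h0 hx
    constructor
    · rw [← A.valuation_le_one_iff, map_div₀, h1, div_one]
      exact (A.valuation_le_one_iff _).2 hx
    · rw [← A.valuation_le_one_iff, map_div₀, h1, div_one, map_one]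
  · have hx' : 1 < A.valuation (xc P) := by
      rw [← A.valuation_le_one_iff, not_le] at hx
      exact hx
    have hv0 : A.valuation (xc P) ≠ 0 := ne_of_gt (lt_trans zero_lt_one hx')
    have h1 : A.valuation (psi P) ^ 2 = A.valuation (xc P) ^ 3 := by
      rw [← map_pow, psi_sq h0, G.val_Psi_of_nonint hx']
    constructor
    · rw [← A.valuation_le_one_iff, ← pow_le_one_iff_of_nonneg zero_le two_ne_zero, map_div₀,
        div_pow, h1]
      rw [div_le_one₀ (pow_pos (lt_trans zero_lt_one hx') 3)]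
      exact pow_le_pow_right₀ hx'.le (by norm_num)
    · rw [← A.valuation_le_one_iff, ← pow_le_one_iff_of_nonneg zero_le two_ne_zero, map_div₀,
        div_pow, h1, map_one, one_pow]
      rw [div_le_one₀ (pow_pos (lt_trans zero_lt_one hx') 3)]
      exact one_le_pow₀ hx'.le

end GoodAt

end Fermat.Agent.ML.ECal
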