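import Fermat.Agent.ML.ECal.Tors

/-!
# ML / ESide / Flat / Unit : the denominator `NN P Q` of the complete addition law is a unit on odd torsion
-/

set_option autoImplicit false
set_option linter.unusedSectionVars false

open WeierstrassCurve WeierstrassCurve.Affine WeierstrassCurve.Affine.Point
open Fermat.Agent.S05

namespace Fermat.Agent.ML.ECal

section Mem

variable {K : Type*} [Field K] {A : ValuationSubring K}

theorem SX_mem {b2 b4 b6 X1 Y1 Z1 X2 Y2 Z2 : K} (h2 : b2 ∈ A) (h4 : b4 ∈ A) (h6 : b6 ∈ A)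
    (hX1 : X1 ∈ A) (hY1 : Y1 ∈ A) (hZ1 : Z1 ∈ A) (hX2 : X2 ∈ A) (hY2 : Y2 ∈ A) (hZ2 : Z2 ∈ A) :
    SX b2 b4 b6 X1 Y1 Z1 X2 Y2 Z2 ∈ A := by
  simp only [SX]
  apply_rules (maxDepth := 1000) [add_mem, sub_mem, neg_mem, mul_mem, pow_mem, ofNat_mem]

theorem SY_mem {b2 b4 b6 X1 Y1 Z1 X2 Y2 Z2 : K} (h2 : b2 ∈ A) (h4 : b4 ∈ A) (h6 : b6 ∈ A)
    (hX1 : X1 ∈ A) (hY1 : Y1 ∈ A) (hZ1 : Z1 ∈ A) (hX2 : X2 ∈ A) (hY2 : Y2 ∈ A) (hZ2 : Z2 ∈ A) :
    SY b2 b4 b6 X1 Y1 Z1 X2 Y2 Z2 ∈ A := by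
  simp only [SY]
  apply_rules (maxDepth := 1000) [add_mem, sub_mem, neg_mem, mul_mem, pow_mem, ofNat_mem]

end Mem

variable {K : Type*} [Field K] [DecidableEq K] {A : ValuationSubring K}
  {W : WeierstrassCurve.Affine K}

/-- `α₁β₂ - α₂β₁`. -/
def DD (P Q : W.Point) : K := al P * be Q - al Q * be P

theorem eq_or_of_DD_eq_zero {P Q : W.Point} (hP : NoTwo P) (hQ : NoTwo Q) (h : DD P Q = 0) :
    P = 0 ∨ Q = 0 ∨ P = Q ∨ P = -Q := by
  by_cases hP0 : P = 0
  · exact Or.inl hP0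
  by_cases hQ0 : Q = 0
  · exact Or.inr (Or.inl hQ0)
  right; right
  have h1 := psi_ne_zero hP0 hP
  have h2 := psi_ne_zero hQ0 hQ
  rw [DD, al_of_ne hP0, al_of_ne hQ0, be_of_ne hP0, be_of_ne hQ0] at h
  apply (xc_eq_iff hP0 hQ0).1
  have h' : xc P - xc Q
      = (xc P / psi P * (1 / psi Q) - xc Q / psi Q * (1 / psi P)) * (psi P * psi Q) := by
    field_simp
  rw [h, zero_mul] at h'
  exact sub_eq_zero.1 h'

namespace GoodAt

variable (G : GoodAt A W)
include G

theorem NN_mem {m : ℕ} (hm : Odd m) {P Q : W.Point} (hP : m • P = 0) (hQ : m • Q = 0) :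
    NN P Q ∈ A :=
  SY_mem G.b2 G.b4 G.b6 (G.al_be_mem hm hP).1 (one_mem _) (G.al_be_mem hm hP).2
    (G.al_be_mem hm hQ).1 (one_mem _) (G.al_be_mem hm hQ).2

theorem be_dbl {m : ℕ} (hm : Odd m) {P : W.Point} (hP : m • P = 0) :
    be (P + P) * NN P P = 8 * be P := by
  have hP2 : m • (P + P) = 0 := by rw [smul_add, hP, add_zero]
  have h := (add_law G.two_ne (noTwo_of_odd hm hP) (noTwo_of_odd hm hP) (noTwo_of_odd hm hP2)).2
  rw [h, NZ]
  exact SZ_self_chart (chart_eq (noTwo_of_odd hm hP))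

/-- the diagonal. -/
theorem val_NN_self {m : ℕ} (hm : Odd m) {P : W.Point} (hP : m • P = 0) :
    A.valuation (NN P P) = 1 := by
  by_cases h0 : P = 0
  · subst h0; rw [NN_zero_left, map_one]
  obtain ⟨r, hr, hper⟩ := exists_period (M := W.Point) hm
  have hstep : ∀ i : ℕ, A.valuation (be (2 ^ (i + 1) • P)) * A.valuation (NN (2 ^ i • P) (2 ^ i • P))
      = A.valuation (be (2 ^ i • P)) := by
    intro i
    have := congrArg A.valuation (G.be_dbl hm (tors_pow hP i))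
    rwa [map_mul, map_mul, G.val_eight, one_mul, ← pow_succ_nsmul] at this
  have hmono : ∀ i : ℕ, A.valuation (be (2 ^ i • P)) ≤ A.valuation (be (2 ^ (i + 1) • P)) := by
    intro i
    rw [← hstep i]
    exact mul_le_of_le_one_right' ((A.valuation_le_one_iff _).2
      (G.NN_mem hm (tors_pow hP i) (tors_pow hP i)))
  have h1 := eq_of_mono_periodic (f := fun i => A.valuation (be (2 ^ i • P))) hmono hr
    (by simp only [hper P hP, pow_zero, one_nsmul])
  have h2 := hstep 0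
  simp only [zero_add, pow_zero, one_nsmul] at h1 h2
  rw [h1] at h2
  have hne : A.valuation (be P) ≠ 0 :=
    (A.valuation.ne_zero_iff).2 (be_ne_zero h0 (noTwo_of_odd hm hP))
  exact mul_left_cancel₀ hne (h2.trans (mul_one _).symm)

theorem DD_dbl {m : ℕ} (hm : Odd m) {P Q : W.Point} (hP : m • P = 0) (hQ : m • Q = 0) :
    NN P P * NN Q Q * DD (P + P) (Q + Q) = 16 * NN P Q * DD P Q := by
  have hP2 : m • (P + P) = 0 := by rw [smul_add, hP, add_zero]
  have hQ2 : m • (Q + Q) = 0 := by rw [smul_add, hQ, add_zero]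
  have hp := add_law G.two_ne (noTwo_of_odd hm hP) (noTwo_of_odd hm hP) (noTwo_of_odd hm hP2)
  have hq := add_law G.two_ne (noTwo_of_odd hm hQ) (noTwo_of_odd hm hQ) (noTwo_of_odd hm hQ2)
  have key := det_dbl_chart (chart_eq (noTwo_of_odd hm hP)) (chart_eq (noTwo_of_odd hm hQ))
  have e1 : NX P P * NZ Q Q - NX Q Q * NZ P P = 16 * NN P Q * DD P Q := key
  rw [← e1, ← hp.1, ← hp.2, ← hq.1, ← hq.2, DD]
  ring

/-- **the denominator of the addition law is a unit.** -/
theorem val_NN {m : ℕ} (hm : Odd m) {P Q : W.Point} (hP : m • P = 0) (hQ : m • Q = 0) :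
    A.valuation (NN P Q) = 1 := by
  by_cases hD : DD P Q = 0
  · rcases eq_or_of_DD_eq_zero (noTwo_of_odd hm hP) (noTwo_of_odd hm hQ) hD with h | h | h | h
    · subst h; rw [NN_zero_left, map_one]
    · subst h; rw [NN_zero_right, map_one]
    · subst h; exact G.val_NN_self hm hP
    · have : NN P Q = NN Q Q := by
        rw [h, ← NN_neg_right (-Q) Q]
        simp only [NN, al_neg, be_neg, SY]
        ring
      rw [this]; exact G.val_NN_self hm hQ
  obtain ⟨r, hr, hper⟩ := exists_period (M := W.Point) hm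
  have hstep : ∀ i : ℕ, A.valuation (DD (2 ^ (i + 1) • P) (2 ^ (i + 1) • Q))
      = A.valuation (NN (2 ^ i • P) (2 ^ i • Q)) * A.valuation (DD (2 ^ i • P) (2 ^ i • Q)) := by
    intro i
    have := congrArg A.valuation (G.DD_dbl hm (tors_pow hP i) (tors_pow hQ i))
    rwa [map_mul, map_mul, map_mul, map_mul, G.val_sixteen, one_mul,
      G.val_NN_self hm (tors_pow hP i), G.val_NN_self hm (tors_pow hQ i), one_mul, one_mul,
      ← pow_succ_nsmul, ← pow_succ_nsmul] at this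
  have hanti : ∀ i : ℕ, A.valuation (DD (2 ^ (i + 1) • P) (2 ^ (i + 1) • Q))
      ≤ A.valuation (DD (2 ^ i • P) (2 ^ i • Q)) := by
    intro i
    rw [hstep i]
    exact mul_le_of_le_one_left' ((A.valuation_le_one_iff _).2
      (G.NN_mem hm (tors_pow hP i) (tors_pow hQ i)))
  have h1 := eq_of_anti_periodic (f := fun i => A.valuation (DD (2 ^ i • P) (2 ^ i • Q))) hanti hr
    (by simp only [hper P hP, hper Q hQ, pow_zero, one_nsmul])
  have h2 := hstep 0
  simp only [zero_add, pow_zero, one_nsmul] at h1 h2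
  rw [h1] at h2
  have hne : A.valuation (DD P Q) ≠ 0 := (A.valuation.ne_zero_iff).2 hD
  exact mul_right_cancel₀ hne (h2.symm.trans (one_mul _).symm)

end GoodAt

end Fermat.Agent.ML.ECal
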