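import Fermat.Agent.ML.ECal.AddLaw

/-!
# ML / ESide / Flat / Val : integrality of the chart on odd torsion, good reduction, residue characteristic `≠ 2`
-/

set_option autoImplicit false

open WeierstrassCurve WeierstrassCurve.Affine WeierstrassCurve.Affine.Point
open Fermat.Agent.S05

namespace Fermat.Agent.ML.ECal

variable {K : Type*} [Field K] (A : ValuationSubring K) {W : WeierstrassCurve.Affine K}

/-- good reduction at `A`, residue characteristic `≠ 2`. -/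
structure GoodAt (A : ValuationSubring K) (W : WeierstrassCurve.Affine K) : Prop where
  b2 : W.b₂ ∈ A
  b4 : W.b₄ ∈ A
  b6 : W.b₆ ∈ A
  b8 : W.b₈ ∈ A
  disc : A.valuation W.Δ = 1
  two : A.valuation (2 : K) = 1

variable {A}

theorem val_unit_add {u w : K} (hu : A.valuation u = 1) (hw : A.valuation w < 1) :
    A.valuation (u + w) = 1 := by
  rw [Valuation.map_add_eq_of_lt_left _ (by rwa [hu]), hu]

theorem val_mul_lt {t w : K} (ht : A.valuation t < 1) (hw : w ∈ A) : A.valuation (t * w) < 1 := by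
  rw [map_mul]
  exact mul_lt_one_of_lt_of_le ht ((A.valuation_le_one_iff _).2 hw)

namespace GoodAt

variable (G : GoodAt A W)
include G

theorem two_ne : (2 : K) ≠ 0 := by
  intro h
  have := G.two
  rw [h, _root_.map_zero] at this
  exact zero_ne_one this

theorem val_four : A.valuation (4 : K) = 1 := by
  have : (4 : K) = 2 * 2 := by norm_num
  rw [this, map_mul, G.two, one_mul]

theorem val_eight : A.valuation (8 : K) = 1 := by
  have : (8 : K) = 2 * 2 * 2 := by norm_num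
  rw [this, map_mul, map_mul, G.two, one_mul, one_mul]

theorem val_sixteen : A.valuation (16 : K) = 1 := by
  have : (16 : K) = 2 * 2 * 2 * 2 := by norm_num
  rw [this, map_mul, map_mul, map_mul, G.two, one_mul, one_mul, one_mul]

theorem val_Psi_of_nonint {x : K} (hx : 1 < A.valuation x) :
    A.valuation (4 * x ^ 3 + W.b₂ * x ^ 2 + 2 * W.b₄ * x + W.b₆) = A.valuation x ^ 3 := by
  have hx0 : x ≠ 0 := by
    intro h; rw [h, _root_.map_zero] at hx; exact absurd hx (by simp)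
  have ht : A.valuation x⁻¹ < 1 := by
    rw [map_inv₀]; exact inv_lt_one_of_one_lt₀ hx
  have htA : x⁻¹ ∈ A := (A.valuation_le_one_iff _).1 ht.le
  have h1 : 4 * x ^ 3 + W.b₂ * x ^ 2 + 2 * W.b₄ * x + W.b₆
      = x ^ 3 * (4 + x⁻¹ * (W.b₂ + 2 * W.b₄ * x⁻¹ + W.b₆ * x⁻¹ ^ 2)) := by
    field_simp
    ring
  have hb2 := G.b2
  have hb4 := G.b4
  have hb6 := G.b6
  have h2 : W.b₂ + 2 * W.b₄ * x⁻¹ + W.b₆ * x⁻¹ ^ 2 ∈ A := by
    apply_rules [add_mem, mul_mem, pow_mem, ofNat_mem]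
  rw [h1, map_mul, map_pow, val_unit_add G.val_four (val_mul_lt ht h2), mul_one]

theorem val_Phi_of_nonint {x : K} (hx : 1 < A.valuation x) :
    A.valuation (x ^ 4 - W.b₄ * x ^ 2 - 2 * W.b₆ * x - W.b₈) = A.valuation x ^ 4 := by
  have hx0 : x ≠ 0 := by
    intro h; rw [h, _root_.map_zero] at hx; exact absurd hx (by simp)
  have ht : A.valuation x⁻¹ < 1 := by
    rw [map_inv₀]; exact inv_lt_one_of_one_lt₀ hx
  have htA : x⁻¹ ∈ A := (A.valuation_le_one_iff _).1 ht.le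
  have h1 : x ^ 4 - W.b₄ * x ^ 2 - 2 * W.b₆ * x - W.b₈
      = x ^ 4 * (1 + x⁻¹ * (-(W.b₄ * x⁻¹) - 2 * W.b₆ * x⁻¹ ^ 2 - W.b₈ * x⁻¹ ^ 3)) := by
    field_simp
    ring
  have hb4 := G.b4
  have hb6 := G.b6
  have hb8 := G.b8
  have h2 : -(W.b₄ * x⁻¹) - 2 * W.b₆ * x⁻¹ ^ 2 - W.b₈ * x⁻¹ ^ 3 ∈ A := by
    apply_rules [add_mem, sub_mem, neg_mem, mul_mem, pow_mem, ofNat_mem]
  rw [h1, map_mul, map_pow, val_unit_add (map_one _) (val_mul_lt ht h2), mul_one]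

/-- the resultant identity. -/
theorem val_Phi_of_Psi_small {x : K} (hx : x ∈ A)
    (hΨ : A.valuation (4 * x ^ 3 + W.b₂ * x ^ 2 + 2 * W.b₄ * x + W.b₆) < 1) :
    A.valuation (x ^ 4 - W.b₄ * x ^ 2 - 2 * W.b₆ * x - W.b₈) = 1 := by
  have hb2 := G.b2
  have hb4 := G.b4
  have hb6 := G.b6
  have hb8 := G.b8
  have hU : 48 * x ^ 2 + 8 * W.b₂ * x + 32 * W.b₄ - W.b₂ ^ 2 ∈ A := by
    apply_rules [add_mem, sub_mem, neg_mem, mul_mem, pow_mem, ofNat_mem]
  have hV : -(-12 * x ^ 3 + W.b₂ * x ^ 2 + 10 * W.b₄ * x + 27 * W.b₆ - W.b₂ * W.b₄) ∈ A := by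
    apply_rules [add_mem, sub_mem, neg_mem, mul_mem, pow_mem, ofNat_mem]
  have hΦ : x ^ 4 - W.b₄ * x ^ 2 - 2 * W.b₆ * x - W.b₈ ∈ A := by
    apply_rules [add_mem, sub_mem, neg_mem, mul_mem, pow_mem, ofNat_mem]
  have hid : (48 * x ^ 2 + 8 * W.b₂ * x + 32 * W.b₄ - W.b₂ ^ 2)
        * (x ^ 4 - W.b₄ * x ^ 2 - 2 * W.b₆ * x - W.b₈)
      = -W.Δ + (4 * x ^ 3 + W.b₂ * x ^ 2 + 2 * W.b₄ * x + W.b₆)
        * -(-12 * x ^ 3 + W.b₂ * x ^ 2 + 10 * W.b₄ * x + 27 * W.b₆ - W.b₂ * W.b₄) := by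
    have hrel := W.b_relation
    simp only [WeierstrassCurve.Δ]
    linear_combination (-(12 * x ^ 2 + 2 * W.b₂ * x + 8 * W.b₄)) * hrel
  have h1 : A.valuation ((48 * x ^ 2 + 8 * W.b₂ * x + 32 * W.b₄ - W.b₂ ^ 2)
        * (x ^ 4 - W.b₄ * x ^ 2 - 2 * W.b₆ * x - W.b₈)) = 1 := by
    rw [hid]
    exact val_unit_add (by rw [Valuation.map_neg, G.disc]) (val_mul_lt hΨ hV)
  rw [map_mul] at h1
  refine le_antisymm ((A.valuation_le_one_iff _).2 hΦ) ?_
  calc (1 : A.ValueGroup) = _ := h1.symm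
    _ ≤ 1 * A.valuation (x ^ 4 - W.b₄ * x ^ 2 - 2 * W.b₆ * x - W.b₈) :=
        mul_le_mul' ((A.valuation_le_one_iff _).2 hU) le_rfl
    _ = _ := one_mul _

end GoodAt

end Fermat.Agent.ML.ECal
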